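import Mathlib.RepresentationTheory.Character
import Mathlib.RepresentationTheory.Semisimple
import Mathlib.RepresentationTheory.Maschke
import Mathlib.LinearAlgebra.Projection
import Mathlib.Algebra.CharZero.Defs

/-!
# Splitting off subrepresentations

Over a field in which `|G|` is invertible, a representation which is neither `0` nor irreducible
is the sum of two smaller ones. The pairing of the characters of two irreducible ones is a positive
integer if the characters agree, and `0` otherwise.
-/

set_option autoImplicit false
set_option linter.style.haveILetI false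

noncomputable section

open Module Finset

namespace FA.BrauerSplitting

variable {k : Type*} [Field k] {G : Type*} [Group G] {V : Type*} [AddCommGroup V] [Module k V]
  [FiniteDimensional k V]

/-- **Splitting.** -/
theorem exists_split [Finite G] [NeZero (Nat.card G : k)] (ρ : Representation k G V)
    (hV : finrank k V ≠ 0) (hirr : ¬Representation.IsIrreducible ρ) :
    ∃ W U : Subrepresentation ρ, IsCompl W.toSubmodule U.toSubmodule ∧
      finrank k W.toSubmodule < finrank k V ∧ finrank k U.toSubmodule < finrank k V := by
  haveI : ComplementedLattice (Subrepresentation ρ) :=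
    (Representation.isSemisimpleRepresentation_iff_isSemisimpleModule_asModule ρ).2 inferInstance
  haveI : Nontrivial V := Module.nontrivial_of_finrank_pos (Nat.pos_of_ne_zero hV)
  haveI : Nontrivial (Subrepresentation ρ) := ⟨⊥, ⊤, fun h => by
    obtain ⟨x, hx⟩ := exists_ne (0 : V)
    exact hx (show x ∈ (⊥ : Subrepresentation ρ) from h ▸ trivial)⟩
  obtain ⟨W, hW⟩ : ∃ W : Subrepresentation ρ, ¬(W = ⊥ ∨ W = ⊤) := not_forall.1 fun h => hirr ⟨h⟩
  rw [not_or] at hW
  obtain ⟨U, hU⟩ := exists_isCompl W
  have hc : IsCompl W.toSubmodule U.toSubmodule := by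
    refine ⟨disjoint_iff.2 ((Submodule.eq_bot_iff _).2 fun x hx =>
      (show x ∈ (⊥ : Subrepresentation ρ) from hU.inf_eq_bot ▸ ⟨hx.1, hx.2⟩)),
      codisjoint_iff.2 (eq_top_iff.2 fun x _ => ?_)⟩
    exact (show x ∈ W ⊔ U from hU.sup_eq_top ▸ trivial)
  refine ⟨W, U, hc, Submodule.finrank_lt fun h => hW.2 ?_,
    Submodule.finrank_lt fun h => hW.1 ?_⟩
  · exact Subrepresentation.toSubmodule_injective h
  · refine Subrepresentation.toSubmodule_injective (?_ : W.toSubmodule = ⊥)
    have h' := hc.inf_eq_bot
    rwa [h, inf_top_eq] at h'

/-- The character splits. -/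
theorem character_add_of_isCompl (ρ : Representation k G V) {W U : Subrepresentation ρ}
    (hc : IsCompl W.toSubmodule U.toSubmodule) (g : G) :
    ρ.character g = W.toRepresentation.character g + U.toRepresentation.character g := by
  set e := Submodule.prodEquivOfIsCompl _ _ hc
  have h : ρ g = e.conj ((W.toRepresentation g).prodMap (U.toRepresentation g)) := by
    refine LinearMap.ext fun y => ?_
    obtain ⟨x, rfl⟩ := e.surjective y
    rw [LinearEquiv.conj_apply_apply, LinearEquiv.symm_apply_apply]
    simp [e, map_add]
    rfl
  rw [Representation.character, h, LinearMap.trace_conj', LinearMap.trace_prodMap',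
    Representation.character, Representation.character]

variable [Fintype G] {W : Type*} [AddCommGroup W] [Module k W] [FiniteDimensional k W]

/-- Two irreducible characters are equal or orthogonal. -/
theorem sum_char_eq_zero [CharZero k] (ρ : Representation k G V) (σ : Representation k G W)
    [Representation.IsIrreducible ρ] [Representation.IsIrreducible σ]
    (hne : ρ.character ≠ σ.character) :
    (Nat.card G : k)⁻¹ * ∑ g, σ.character g * ρ.character g⁻¹ = 0 := by
  haveI : Invertible (Nat.card G : k) :=
    invertibleOfNonzero (Nat.cast_ne_zero.2 Nat.card_pos.ne')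
  haveI : IsEmpty (ρ.Equiv σ) := ⟨fun φ => hne (Representation.char_iso φ)⟩
  rw [Representation.card_inv_mul_sum_char_mul_char_eq_finrank,
    finrank_zero_of_subsingleton, Nat.cast_zero]

/-- An irreducible character has positive norm. -/
theorem exists_norm_pos [CharZero k] (ρ : Representation k G V)
    [Representation.IsIrreducible ρ] :
    ∃ n : ℕ, n ≠ 0 ∧ (Nat.card G : k)⁻¹ * ∑ g, ρ.character g * ρ.character g⁻¹ = n := by
  haveI : Invertible (Nat.card G : k) :=
    invertibleOfNonzero (Nat.cast_ne_zero.2 Nat.card_pos.ne')
  refine ⟨_, fun h => ?_, Representation.card_inv_mul_sum_char_mul_char_eq_finrank ρ ρ⟩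
  haveI := (Module.finrank_zero_iff (R := k)).1 h
  refine bot_ne_top (α := Subrepresentation ρ) (Subrepresentation.toSubmodule_injective ?_)
  refine (Submodule.eq_bot_iff _).2 (fun x _ => ?_) |>.symm
  exact congrArg (fun f : Representation.IntertwiningMap ρ ρ => f x)
    (Subsingleton.elim (Representation.IntertwiningMap.id ρ) 0)

end FA.BrauerSplitting

end
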