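import Fermat.Agent.BrauerSplitting.Monomial
import Mathlib.FieldTheory.IntermediateField.Adjoin.Defs

/-!
# Brauer's splitting field theorem

An irreducible complex representation is isomorphic to one over the field of the roots of unity of
exponent dividing that of the group, having the same character; by splitting, every representation
has a basis in which all the matrices have entries in this field.
-/

set_option autoImplicit false
set_option linter.style.haveILetI false

noncomputable section

open Module Finset FA.FrobeniusGroups FA.CharacterTheory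

namespace FA.BrauerSplitting

variable {K : Type} [Field K] [Algebra K ℂ] [CharZero K] {G : Type*} [Group G] [Fintype G]

/-- An irreducible representation in a basis with entries in `K`. -/
theorem exists_basis_of_irreducible
    (hroots : ∀ z : ℂ, z ^ Monoid.exponent G = 1 → z ∈ (algebraMap K ℂ).range)
    {V : Type*} [AddCommGroup V] [Module ℂ V] [FiniteDimensional ℂ V] (σ : Representation ℂ G V)
    [Representation.IsIrreducible σ] :
    ∃ (n : ℕ) (b : Basis (Fin n) ℂ V), ∀ g i j,
      LinearMap.toMatrix b b (σ g) i j ∈ (algebraMap K ℂ).range := by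
  classical
  have hχ : σ.character ∈ irr G := character_mem_irr σ
  obtain ⟨U, _, _, _, τ, -, hτ⟩ := irr_mem_simpleChars hroots hχ
  set c := finBasis K U
  set A : G →* Matrix (Fin (finrank K U)) (Fin (finrank K U)) ℂ :=
    ((algebraMap K ℂ).mapMatrix.toMonoidHom.comp
      ((LinearMap.toMatrixAlgEquiv c).toAlgHom.toMonoidHom.comp τ))
  set T : Representation ℂ G (Fin (finrank K U) → ℂ) :=
    (Matrix.toLinAlgEquiv' : _ ≃ₐ[ℂ] _).toAlgHom.toMonoidHom.comp A
  have hT : T.character = σ.character := by
    rw [hτ]
    funext g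
    show LinearMap.trace ℂ _ (Matrix.toLin' (A g)) = _
    rw [Matrix.trace_toLin'_eq, Representation.character, LinearMap.trace_eq_matrix_trace K c]
    exact (AddMonoidHom.map_trace (algebraMap K ℂ).toAddMonoidHom _).symm
  haveI : Invertible (Nat.card G : ℂ) :=
    invertibleOfNonzero (Nat.cast_ne_zero.2 Nat.card_pos.ne')
  have h1 := Representation.card_inv_mul_sum_char_mul_char_eq_finrank σ T
  rw [hT] at h1
  have hp := pairing_irr hχ hχ
  rw [if_pos rfl, pairing] at hp
  rw [hp] at h1
  obtain ⟨f, hf⟩ : ∃ f : Representation.IntertwiningMap σ T, f ≠ 0 := by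
    by_contra! h
    haveI : Subsingleton (Representation.IntertwiningMap σ T) :=
      ⟨fun a b => (h a).trans (h b).symm⟩
    rw [finrank_zero_of_subsingleton, Nat.cast_zero] at h1
    exact one_ne_zero h1
  have hinj : Function.Injective f :=
    (Representation.IsIrreducible.injective_or_eq_zero f).resolve_right hf
  have hdim : finrank ℂ V = finrank ℂ (Fin (finrank K U) → ℂ) := by
    have h := congrFun hT 1
    rw [Representation.char_one, Representation.char_one] at h
    exact_mod_cast h.symm
  set e := LinearEquiv.ofBijective f.toLinearMap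
    ⟨hinj, (LinearMap.injective_iff_surjective_of_finrank_eq_finrank hdim).1 hinj⟩
  refine ⟨_, (Pi.basisFun ℂ (Fin (finrank K U))).map e.symm, fun g i j => ?_⟩
  rw [LinearMap.toMatrix_apply, Basis.map_apply, Basis.map_repr, LinearEquiv.trans_apply,
    LinearEquiv.symm_symm, Pi.basisFun_repr]
  show f.toLinearMap (σ g (e.symm (Pi.basisFun ℂ _ j))) i ∈ _
  rw [← LinearMap.comp_apply, f.isIntertwining' g, LinearMap.comp_apply,
    show f.toLinearMap (e.symm (Pi.basisFun ℂ _ j)) = Pi.basisFun ℂ _ j from e.apply_symm_apply _]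
  show Matrix.toLin' (A g) (Pi.basisFun ℂ _ j) i ∈ _
  rw [Matrix.toLin'_apply, Pi.basisFun_apply, Matrix.mulVec_single_one]
  exact ⟨_, rfl⟩

/-- **Brauer's splitting field theorem.** -/
theorem exists_basis
    (hroots : ∀ z : ℂ, z ^ Monoid.exponent G = 1 → z ∈ (algebraMap K ℂ).range)
    {V : Type*} [AddCommGroup V] [Module ℂ V] [FiniteDimensional ℂ V] (σ : Representation ℂ G V) :
    ∃ b : Basis (Fin (finrank ℂ V)) ℂ V, ∀ g i j,
      LinearMap.toMatrix b b (σ g) i j ∈ (algebraMap K ℂ).range := by
  suffices h : ∃ (n : ℕ) (b : Basis (Fin n) ℂ V), ∀ g i j,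
      LinearMap.toMatrix b b (σ g) i j ∈ (algebraMap K ℂ).range by
    obtain ⟨n, b, hb⟩ := h
    obtain rfl : n = finrank ℂ V := by rw [finrank_eq_card_basis b, Fintype.card_fin]
    exact ⟨b, hb⟩
  induction hn : finrank ℂ V using Nat.strong_induction_on generalizing V with
  | _ n ih =>
    subst hn
    by_cases h0 : finrank ℂ V = 0
    · exact ⟨_, finBasis ℂ V, fun g i => (Fin.cast h0 i).elim0⟩
    by_cases hirr : Representation.IsIrreducible σ
    · exact exists_basis_of_irreducible hroots σ
    haveI : NeZero (Nat.card G : ℂ) := ⟨Nat.cast_ne_zero.2 Nat.card_pos.ne'⟩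
    obtain ⟨W, U, hc, hW, hU⟩ := exists_split σ h0 hirr
    obtain ⟨p, bW, hbW⟩ := ih _ hW W.toRepresentation rfl
    obtain ⟨q, bU, hbU⟩ := ih _ hU U.toRepresentation rfl
    set e := Submodule.prodEquivOfIsCompl _ _ hc
    set b := (bW.prod bU).map e
    refine ⟨p + q, b.reindex finSumFinEquiv, fun g i j => ?_⟩
    obtain ⟨i, rfl⟩ := finSumFinEquiv.surjective i
    obtain ⟨j, rfl⟩ := finSumFinEquiv.surjective j
    rw [LinearMap.toMatrix_apply, Basis.reindex_apply, Basis.repr_reindex_apply,
      Equiv.symm_apply_apply, Equiv.symm_apply_apply]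
    have hσ : ∀ x, σ g (e x) = e (W.toRepresentation g x.1, U.toRepresentation g x.2) := fun x => by
      simp [e, map_add]
      rfl
    simp only [b, Basis.map_apply, Basis.map_repr, LinearEquiv.trans_apply]
    rw [hσ, LinearEquiv.symm_apply_apply]
    rcases i with i | i <;> rcases j with j | j
    · simpa [LinearMap.toMatrix_apply] using hbW g i j
    · simp
    · simp
    · simpa [LinearMap.toMatrix_apply] using hbU g i j

/-- The field of the `e`-th roots of unity. -/
theorem mem_range_adjoin (e : ℕ) (z : ℂ) (hz : z ^ e = 1) :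
    z ∈ (algebraMap (IntermediateField.adjoin ℚ {z : ℂ | z ^ e = 1}) ℂ).range :=
  ⟨⟨z, IntermediateField.subset_adjoin ℚ _ hz⟩, rfl⟩

end FA.BrauerSplitting

end
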