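import Fermat.Agent.BrauerSplitting.Basic
import Fermat.Agent.Root.SummaryBrauerInduction

/-!
# Characters defined over a subfield

An induced linear character is afforded by monomial matrices with roots of unity as entries. So over
a field with all these roots Brauer's theorem makes every character an integral combination of
characters of irreducible representations over that field; these being orthogonal of positive
integral norm, an irreducible character is one of them.
-/

set_option autoImplicit false
set_option linter.style.haveILetI false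

noncomputable section

open Module Finset FA.FrobeniusGroups FA.CharacterTheory FA.BrauerInduction

namespace FA.BrauerSplitting

variable (K : Type) [Field K] [Algebra K ℂ] {G : Type*} [Group G] [Fintype G]

variable (G) in
/-- The complex characters of irreducible representations over `K`. -/
def simpleChars : Set (G → ℂ) :=
  {f | ∃ (V : Type) (_ : AddCommGroup V) (_ : Module K V) (_ : FiniteDimensional K V)
    (τ : Representation K G V), Representation.IsIrreducible τ ∧
      f = fun g => algebraMap K ℂ (τ.character g)}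

variable {K}

/-- Every character over `K` is a sum of irreducible ones. -/
theorem mem_closure_simpleChars [CharZero K] {V : Type} [AddCommGroup V] [Module K V]
    [FiniteDimensional K V] (τ : Representation K G V) :
    (fun g => algebraMap K ℂ (τ.character g)) ∈ AddSubgroup.closure (simpleChars K G) := by
  induction hn : finrank K V using Nat.strong_induction_on generalizing V with
  | _ n ih =>
    subst hn
    by_cases h0 : finrank K V = 0
    · haveI := (Module.finrank_zero_iff (R := K)).1 h0
      rw [show (fun g => algebraMap K ℂ (τ.character g)) = 0 from funext fun g => by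
        simp [Representation.character, Subsingleton.elim (τ g) 0]]
      exact zero_mem _
    by_cases hirr : Representation.IsIrreducible τ
    · exact AddSubgroup.subset_closure ⟨V, _, _, inferInstance, τ, hirr, rfl⟩
    haveI : NeZero (Nat.card G : K) := ⟨Nat.cast_ne_zero.2 Nat.card_pos.ne'⟩
    obtain ⟨W, U, hc, hW, hU⟩ := exists_split τ h0 hirr
    rw [show (fun g => algebraMap K ℂ (τ.character g)) =
        (fun g => algebraMap K ℂ (W.toRepresentation.character g)) +
          fun g => algebraMap K ℂ (U.toRepresentation.character g) from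
      funext fun g => by rw [character_add_of_isCompl τ hc, map_add]; rfl]
    exact add_mem (ih _ hW W.toRepresentation rfl) (ih _ hU U.toRepresentation rfl)

open scoped Classical in
/-- An induced linear character is afforded over a field containing its values. -/
theorem exists_monomial (H : Subgroup G) (ψ : H →* ℂˣ)
    (hψ : ∀ h, (ψ h : ℂ) ∈ (algebraMap K ℂ).range) :
    ∃ (n : ℕ) (τ : Representation K G (Fin n → K)),
      (fun g => algebraMap K ℂ (τ.character g)) = induced H fun y => (ψ y : ℂ) := by
  choose φ hφ using hψ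
  haveI : Fintype (G ⧸ H) := Fintype.ofFinite _
  set Φ : G → K := fun x => if h : x ∈ H then φ ⟨x, h⟩ else 0
  have hmem : ∀ g (a : G ⧸ H), (g • a).out⁻¹ * g * a.out ∈ H := fun g a => by
    rw [mul_assoc, ← QuotientGroup.eq, QuotientGroup.out_eq', ← smul_eq_mul,
      ← MulAction.Quotient.smul_coe, QuotientGroup.out_eq']
  have hmul : ∀ x y, x ∈ H → y ∈ H → Φ x * Φ y = Φ (x * y) := fun x y hx hy => by
    refine (algebraMap K ℂ).injective ?_
    simp only [Φ, dif_pos hx, dif_pos hy, dif_pos (H.mul_mem hx hy), map_mul, hφ]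
    rw [← Units.val_mul, ← map_mul]
    rfl
  set A : G →* Matrix (G ⧸ H) (G ⧸ H) K :=
    { toFun := fun g => Matrix.of fun a b => if a = g • b then Φ (a.out⁻¹ * g * b.out) else 0
      map_one' := by
        ext a b
        by_cases h : a = b
        · subst h
          refine (algebraMap K ℂ).injective ?_
          simp [Φ, H.one_mem, hφ, show (⟨1, H.one_mem⟩ : H) = 1 from rfl]
        · simp [h, Matrix.one_apply_ne h]
      map_mul' := fun g h => by
        ext a c
        simp only [Matrix.mul_apply, Matrix.of_apply, ite_mul, zero_mul, mul_ite, mul_zero]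
        rw [sum_eq_single (h • c) (fun b _ hb => if_neg hb) (by simp), if_pos rfl, mul_smul]
        split_ifs with ha
        · subst ha
          rw [hmul _ _ (hmem g _) (hmem h c)]
          congr 1
          group
        · rfl }
  set e := Fintype.equivFin (G ⧸ H)
  set b := (Pi.basisFun K (G ⧸ H)).reindex e
  set E := b.equivFun
  refine ⟨_, (LinearEquiv.conjAlgEquiv K E).toAlgHom.toMonoidHom.comp
    ((Matrix.toLinAlgEquiv' : Matrix (G ⧸ H) (G ⧸ H) K ≃ₐ[K] _).toAlgHom.toMonoidHom.comp A),
    funext fun g => ?_⟩
  show algebraMap K ℂ (LinearMap.trace K _ (E.conj (Matrix.toLin' (A g)))) = _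
  rw [LinearMap.trace_conj', Matrix.trace_toLin'_eq, Matrix.trace, map_sum]
  have key : induced H (fun y => (ψ y : ℂ)) g =
      ∑ᶠ q : G ⧸ H, if h : q.out⁻¹ * g * q.out ∈ H then (ψ ⟨_, h⟩ : ℂ) else 0 :=
    FA.Summary.induced_eq_finsum G (MonoidHom.id G) Function.surjective_id H ψ g
  rw [key, finsum_eq_sum_of_fintype]
  refine sum_congr rfl fun q _ => ?_
  show algebraMap K ℂ (if q = g • q then Φ (q.out⁻¹ * g * q.out) else 0) = _
  by_cases h : q.out⁻¹ * g * q.out ∈ H
  · rw [dif_pos h, if_pos]
    · simp only [Φ, dif_pos h, hφ]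
    · conv_rhs => rw [← QuotientGroup.out_eq' q]
      conv_lhs => rw [← QuotientGroup.out_eq' q]
      rw [MulAction.Quotient.smul_coe, smul_eq_mul, QuotientGroup.eq, ← mul_assoc]
      exact h
  · rw [dif_neg h]
    simp [Φ, h]

open scoped Classical in
/-- **An irreducible character is afforded over `K`.** -/
theorem irr_mem_simpleChars [CharZero K]
    (hroots : ∀ z : ℂ, z ^ Monoid.exponent G = 1 → z ∈ (algebraMap K ℂ).range)
    {χ : G → ℂ} (hχ : χ ∈ irr G) : χ ∈ simpleChars K G := by
  obtain ⟨d, hd, hχ1⟩ := irr_one hχ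
  have hmem : χ ∈ Submodule.span ℤ (simpleChars K G) := by
    rw [← Submodule.mem_toAddSubgroup, Submodule.span_int_eq_addSubgroupClosure]
    obtain ⟨W, -, rfl⟩ := exists_of_mem_irr hχ
    refine (AddSubgroup.closure_le _).2 ?_ (character_mem_brauerSpan W.toRepresentation)
    rintro _ ⟨H, -, ψ, rfl⟩
    obtain ⟨n, τ, hτ⟩ := exists_monomial (K := K) H ψ fun h => hroots _ (by
      rw [← Units.val_pow_eq_pow_val, ← map_pow, show h ^ Monoid.exponent G = 1 from
        Subtype.ext (Monoid.pow_exponent_eq_one (h : G)), map_one, Units.val_one])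
    rw [← hτ]
    exact mem_closure_simpleChars τ
  rw [← Set.image_id (simpleChars K G), Finsupp.mem_span_image_iff_linearCombination] at hmem
  obtain ⟨l, hl, hlχ⟩ := hmem
  have hsimp : ∀ θ ∈ l.support, θ ∈ simpleChars K G := fun θ hθ => hl hθ
  have hexp : χ = fun x => ∑ θ ∈ l.support, (l θ : ℂ) * θ x := by
    rw [← hlχ, Finsupp.linearCombination_apply, Finsupp.sum]
    funext x
    simp [Finset.sum_apply, zsmul_eq_mul]
  have horth : ∀ θ ∈ l.support, ∀ η ∈ l.support, θ ≠ η → pairing θ η = 0 := by
    intro θ hθ η hη hne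
    obtain ⟨V, _, _, _, τ, hτ, rfl⟩ := hsimp θ hθ
    obtain ⟨V', _, _, _, τ', hτ', rfl⟩ := hsimp η hη
    haveI := hτ
    haveI := hτ'
    have h := congrArg (algebraMap K ℂ) (sum_char_eq_zero τ' τ fun h => hne (by rw [h]))
    simp only [map_mul, map_sum, map_inv₀, map_natCast, map_zero] at h
    exact h
  choose! n hn using fun θ (hθ : θ ∈ l.support) => show ∃ n : ℕ, n ≠ 0 ∧ pairing θ θ = n by
    obtain ⟨V, _, _, _, τ, hτ, rfl⟩ := hsimp θ hθ
    haveI := hτ
    obtain ⟨n, hn, h⟩ := exists_norm_pos τ
    refine ⟨n, hn, ?_⟩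
    have h' := congrArg (algebraMap K ℂ) h
    simp only [map_mul, map_sum, map_inv₀, map_natCast] at h'
    exact h'
  have hcoef : ∀ η ∈ l.support, pairing χ η = l η * n η := fun η hη => by
    rw [hexp, pairing_sum_left l.support (fun θ => (l θ : ℂ)) fun θ => θ,
      sum_eq_single η (fun θ hθ hne => by rw [horth θ hθ η hη hne, mul_zero])
        (fun h => absurd hη h), (hn η hη).2]
  have hsum : ∑ θ ∈ l.support, l θ ^ 2 * (n θ : ℤ) = 1 := by
    have h : pairing χ χ = ∑ θ ∈ l.support, (l θ : ℂ) * (l θ * n θ) := by
      nth_rewrite 1 [hexp]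
      rw [pairing_sum_left l.support (fun θ => (l θ : ℂ)) fun θ => θ]
      exact sum_congr rfl fun θ hθ => by rw [pairing_comm, hcoef θ hθ]
    rw [pairing_irr hχ hχ, if_pos rfl] at h
    have h' : (1 : ℤ) = ∑ θ ∈ l.support, l θ * (l θ * n θ) := by exact_mod_cast h
    rw [h']
    exact sum_congr rfl fun θ _ => by ring
  have hpos : ∀ θ ∈ l.support, 1 ≤ l θ ^ 2 * (n θ : ℤ) := fun θ hθ =>
    Int.add_one_le_iff.2 (mul_pos (pow_two_pos_of_ne_zero (Finsupp.mem_support_iff.1 hθ))
      (by exact_mod_cast Nat.pos_of_ne_zero (hn θ hθ).1))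
  obtain ⟨θ, hθ⟩ : ∃ θ, l.support = {θ} := by
    refine card_eq_one.1 (le_antisymm ?_ (card_pos.2 (nonempty_iff_ne_empty.2 fun h => ?_)))
    · have := card_nsmul_le_sum l.support _ _ hpos
      rw [hsum] at this
      simpa using this
    · rw [h] at hsum
      simp at hsum
  have hθm : θ ∈ l.support := hθ ▸ mem_singleton_self θ
  rw [hθ, sum_singleton] at hsum
  have hval : χ = fun x => (l θ : ℂ) * θ x := by rw [hexp, hθ]; simp
  obtain ⟨V, _, _, _, τ, hτ, hθV⟩ := hsimp θ hθm
  rcases sq_eq_one_iff.1 (show l θ ^ 2 = 1 by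
    refine le_antisymm ?_ (Int.add_one_le_iff.2
      (pow_two_pos_of_ne_zero (Finsupp.mem_support_iff.1 hθm)))
    rw [← hsum]
    exact le_mul_of_one_le_right (sq_nonneg _)
      (by exact_mod_cast Nat.pos_of_ne_zero (hn θ hθm).1)) with h | h
  · rw [hval, h]
    simpa using hsimp θ hθm
  · refine absurd hχ1 ?_
    rw [hval, h, hθV]
    simp only [Int.cast_neg, Int.cast_one, neg_mul, one_mul, Representation.char_one,
      map_natCast]
    rw [neg_eq_iff_add_eq_zero, ← Nat.cast_add, Nat.cast_eq_zero]
    omega

end FA.BrauerSplitting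

end
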